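import Fermat.Agent.LG.Final

/-!
# The Galois action on the eigenclasses of `PE Γ (ℤ/ℓ)`
-/

set_option autoImplicit false
set_option linter.unusedSectionVars false
set_option linter.style.haveILetI false

noncomputable section

open UpperHalfPlane Function ModularCurve Filter ModularForm AlgebraicCurve WithZero
  CongruenceSubgroup
open scoped Manifold MatrixGroups Topology ModularForm

namespace Fermat.Agent.DSF

open Fermat.Agent.LG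
open Fermat.Agent.X0Places Fermat.Agent.FunField Fermat.Agent.FunField.PlaceLemmas
open Fermat.Agent.TorsCmp Fermat.Agent.Igusa Fermat.Agent.LGRes Fermat.Agent.LGR
open Fermat.Agent.HeckeHom (HData)
open Matrix.SpecialLinearGroup (mapGL)

section Ell

theorem sq_eq (γ : SL(2, ℤ)) : (γ : Matrix (Fin 2) (Fin 2) ℤ) ^ 2 =
    (γ 0 0 + γ 1 1 : ℤ) • (γ : Matrix (Fin 2) (Fin 2) ℤ) - 1 := by
  have hdet := Fermat.Agent.JInv.det_eq γ
  rw [sq]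
  ext i j
  rw [Matrix.mul_apply, Fin.sum_univ_two, Matrix.sub_apply, Matrix.smul_apply, smul_eq_mul]
  fin_cases i <;> fin_cases j
  · show γ 0 0 * γ 0 0 + γ 0 1 * γ 1 0 = (γ 0 0 + γ 1 1) * γ 0 0 - 1
    linear_combination -hdet
  · show γ 0 0 * γ 0 1 + γ 0 1 * γ 1 1 = (γ 0 0 + γ 1 1) * γ 0 1 - 0
    ring
  · show γ 1 0 * γ 0 0 + γ 1 1 * γ 1 0 = (γ 0 0 + γ 1 1) * γ 1 0 - 0
    ring
  · show γ 1 0 * γ 0 1 + γ 1 1 * γ 1 1 = (γ 0 0 + γ 1 1) * γ 1 1 - 1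
    linear_combination -hdet

/-- Elliptic elements have order dividing `12`. -/
theorem ell_pow_twelve {γ : SL(2, ℤ)} {τ : ℍ} (h : γ • τ = τ) : γ ^ 12 = 1 := by
  rcases fix_cases h with (h1 | h1) | h1
  · rw [h1, one_pow]
  · rw [h1, show (12 : ℕ) = 2 * 6 from rfl, pow_mul, neg_one_sq, one_pow]
  · have h2 := sq_eq γ
    have h3 : (γ 0 0 + γ 1 1) < 2 := by nlinarith
    have h4 : -2 < (γ 0 0 + γ 1 1) := by nlinarith
    apply Subtype.ext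
    rw [Matrix.SpecialLinearGroup.coe_pow, Matrix.SpecialLinearGroup.coe_one]
    obtain h5 | h5 | h5 : (γ 0 0 + γ 1 1) = -1 ∨ (γ 0 0 + γ 1 1) = 0 ∨ (γ 0 0 + γ 1 1) = 1 := by
      omega
    · rw [h5] at h2
      have h6 : γ.1 ^ 3 = 1 := by
        rw [pow_succ, h2, sub_mul, smul_mul_assoc, ← sq, h2, one_mul]
        simp
      rw [show (12 : ℕ) = 3 * 4 from rfl, pow_mul, h6, one_pow]
    · rw [h5] at h2
      have h6 : γ.1 ^ 4 = 1 := by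
        rw [show (4 : ℕ) = 2 * 2 from rfl, pow_mul, h2]
        simp
      rw [show (12 : ℕ) = 4 * 3 from rfl, pow_mul, h6, one_pow]
    · rw [h5] at h2
      have h6 : γ.1 ^ 3 = -1 := by
        rw [pow_succ, h2, sub_mul, smul_mul_assoc, ← sq, h2, one_mul]
        simp
      rw [show (12 : ℕ) = 3 * 4 from rfl, pow_mul, h6, show (4 : ℕ) = 2 * 2 from rfl, pow_mul,
        neg_one_sq, one_pow]

/-- parabolic homomorphisms with values in a group without `2`- and `3`-torsion -/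
theorem mem_PE_of_parabolic12 {Γ : Subgroup SL(2, ℤ)} {A : Type*} [AddCommGroup A]
    (hA : ∀ a : A, (12 : ℕ) • a = 0 → a = 0) {x : Additive Γ →+ A}
    (hx : Period.IsParabolicHom Γ x) : x ∈ PE Γ A := by
  refine ⟨hx, fun γ τ hγ => hA _ ?_⟩
  have h1 := ell_pow_twelve hγ
  rw [← map_nsmul, ← ofMul_pow]
  have h2 : γ ^ 12 = 1 := Subtype.ext (by rw [Subgroup.coe_pow, h1]; rfl)
  rw [h2, ofMul_one, map_zero]

theorem twelve_torsionFree {ℓ : ℕ} (hℓ : ℓ.Prime) (h5 : 5 ≤ ℓ) (a : ZMod ℓ)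
    (h : (12 : ℕ) • a = 0) : a = 0 := by
  have h1 : IsUnit ((12 : ℕ) : ZMod ℓ) := by
    rw [ZMod.isUnit_iff_coprime, show (12 : ℕ) = 2 * 2 * 3 from rfl]
    have h2 : Nat.Coprime 2 ℓ := (Nat.coprime_primes Nat.prime_two hℓ).2 (by omega)
    have h3 : Nat.Coprime 3 ℓ := (Nat.coprime_primes Nat.prime_three hℓ).2 (by omega)
    exact (h2.mul_left h2).mul_left h3
  rw [nsmul_eq_mul] at h
  exact (h1.mul_right_eq_zero).1 h

end Ell

/-- The data for `Γ ⊆ Γ₀(M)`: a group defined by a condition on the lower right entry modulo `q`,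
and its diamond operators. -/
structure GeoD {L : Type*} [Field L] [Algebra ℚ L] (ι : L →+* ℂ) (Γ : Subgroup SL(2, ℤ))
    (M q : ℕ) [GalSt ι Γ M] where
  cong : IsCong Γ M q
  hn : ∀ g ∈ Gamma0 M, ∀ γ ∈ Γ, g * γ * g⁻¹ ∈ Γ
  /-- diamond operators -/
  dia : SL(2, ℤ) → (FG ι Γ M →+* FG ι Γ M)
  hdia : ∀ g ∈ Gamma0 M, ∀ f, toM ι Γ M (dia g f) = compMer g (toM ι Γ M f)
  hgal : ∀ g ∈ Gamma0 M, ∀ (σ : L ≃ₐ[ℚ] L) (f : FG ι Γ M),
    dia g (galF ι Γ M σ f) = galF ι Γ M σ (dia g f)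

/-- the absolute Galois group of `ℚ` -/
local notation "GQb" => AlgebraicClosure ℚ ≃ₐ[ℚ] AlgebraicClosure ℚ

/-- (K') : classes with trivial reduction vanish, for all places of residue characteristic prime
to `M` -/
def KPr (ι : AlgebraicClosure ℚ →+* ℂ) (Γ : Subgroup SL(2, ℤ)) (M ℓ : ℕ) : Prop :=
  ∀ (s : ℕ), s.Prime → ¬ s ∣ M → ∀ A : ValuationSubring (AlgebraicClosure ℚ),
    A.LiesOverPrime s → ∀ y ∈ PE Γ (ZMod ℓ), TR A (IsLocalRing.residue A) ι M ℓ y → y = 0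

section Main

variable {ι : AlgebraicClosure ℚ →+* ℂ} {M : ℕ} [NeZero M] {Γ : Subgroup SL(2, ℤ)} {q : ℕ}
  [MF ι Γ M] [GalSt ι Γ M] [RepEx ι Γ M]

section Rel

variable (ht : IsTameField (FG ι Γ M)) {ℓ : ℕ} [NeZero ℓ] (hK : KPr ι Γ M ℓ)

include ht hK in
/-- inertia acts trivially -/
theorem galH_inertia {s : ℕ} (hs : s.Prime) (hsM : ¬ s ∣ M)
    {A : ValuationSubring (AlgebraicClosure ℚ)} (hA : A.LiesOverPrime s) {σ : GQb}
    (hσ : σ ∈ A.inertiaSubgroupIn ℚ) (x : PE Γ (ZMod ℓ)) : galH ι M ℓ σ x = x := by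
  have h1 := TR_inertia (π := IsLocalRing.residue A) ht hσ x
  exact sub_eq_zero.mp (Subtype.ext (hK s hs hsM A hA _ (galH ι M ℓ σ x - x).2 h1))

include ht hK in
/-- **Eichler–Shimura relation** -/
theorem galH_frob {s : ℕ} [hs : Fact s.Prime] (hsM : ¬ s ∣ M)
    {A : ValuationSubring (AlgebraicClosure ℚ)} (hA : A.LiesOverPrime s) (D : TData Γ s)
    {dia : FG ι Γ M →+* FG ι Γ M} (hdia : ∀ f, toM ι Γ M (dia f) = compMer D.σ (toM ι Γ M f))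
    (hσ : ∀ γ ∈ Γ, D.σ * γ * D.σ⁻¹ ∈ Γ) {x Tx dx : PE Γ (ZMod ℓ)}
    (hTx : (Tx : Additive Γ →+ ZMod ℓ) = D.H.hom (ZMod ℓ) x)
    (hdx : (dx : Additive Γ →+ ZMod ℓ) = conjH D.σ hσ (x : Additive Γ →+ ZMod ℓ))
    {Φ : GQb} (hΦ : A.IsFrobeniusAt Φ s) :
    galH ι M ℓ Φ (galH ι M ℓ Φ x) - galH ι M ℓ Φ Tx + s • dx = 0 := by
  haveI : NeZero s := ⟨hs.out.ne_zero⟩
  haveI i1 : IsAlgClosed (IsLocalRing.ResidueField A) :=
    Fermat.Agent.HeckeRed.isAlgClosed_residueField A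
  haveI i2 : CharP (IsLocalRing.ResidueField A) s :=
    Fermat.Agent.HeckeRed.charP_residueField hs.out hA
  haveI i3 : PerfectRing (IsLocalRing.ResidueField A) s :=
    PerfectRing.ofSurjective _ s (fun x => by
      obtain ⟨y, hy⟩ := IsAlgClosed.exists_pow_nat_eq x hs.out.pos
      exact ⟨y, hy⟩)
  obtain ⟨ζ, hζ⟩ := exists_zeta ι s
  have h1 := TR_frob (κ := IsLocalRing.ResidueField A) (π := IsLocalRing.residue A) ht D hdia hσ hζ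
    hTx hdx hΦ
  exact Subtype.ext (hK s hs.out hsM A hA _ (galH ι M ℓ Φ (galH ι M ℓ Φ x) -
    galH ι M ℓ Φ Tx + s • dx).2 h1)

end Rel

variable (G : GeoD ι Γ M q) {ℓ : ℕ} [hℓ : Fact ℓ.Prime]

/-- eigenclasses with eigenvalues `α`, `ψ` -/
structure IsEig (α : ℕ → ZMod ℓ) (ψ : SL(2, ℤ) → ZMod ℓ) (x : Additive Γ →+ ZMod ℓ) : Prop where
  hecke : ∀ (s : ℕ) (_ : Fact s.Prime) (hsM : ¬ s ∣ M) (σ : SL(2, ℤ)) (hσ : σ ∈ Gamma0 M)
    (hqs : IsCoprime (q : ℤ) (s : ℤ)) (hσs : (q : ℤ) ∣ σ 1 1 - s),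
    (tdataG G.cong hsM σ hσ hqs hσs).H.hom (ZMod ℓ) x = (AddMonoidHom.mulLeft (α s)).comp x
  conj : ∀ g (hg : g ∈ Gamma0 M), conjH g (G.hn g hg) x = (AddMonoidHom.mulLeft (ψ g)).comp x

theorem mulLeft_comp (a : ZMod ℓ) (x : Additive Γ →+ ZMod ℓ) :
    (AddMonoidHom.mulLeft a).comp x = a.val • x := by
  refine AddMonoidHom.ext fun γ => ?_
  show a * x γ = a.val • x γ
  rw [nsmul_eq_mul, ZMod.natCast_zmod_val]

/-- the space of the eigenclasses -/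
def EigV (α : ℕ → ZMod ℓ) (ψ : SL(2, ℤ) → ZMod ℓ) : AddSubgroup (PE Γ (ZMod ℓ)) where
  carrier := {x | IsEig G α ψ (x : Additive Γ →+ ZMod ℓ)}
  add_mem' {x y} hx hy := by
    refine ⟨fun s hs hsM σ hσ hqs hσs => ?_, fun g hg => ?_⟩
    · rw [AddSubgroup.coe_add, map_add, hx.hecke s hs hsM σ hσ hqs hσs,
        hy.hecke s hs hsM σ hσ hqs hσs, AddMonoidHom.comp_add]
    · have h1 : conjH g (G.hn g hg) ((x + y : PE Γ (ZMod ℓ)) : Additive Γ →+ ZMod ℓ) =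
        conjH g (G.hn g hg) (x : Additive Γ →+ ZMod ℓ) +
          conjH g (G.hn g hg) (y : Additive Γ →+ ZMod ℓ) := rfl
      rw [h1, hx.conj g hg, hy.conj g hg, AddSubgroup.coe_add, AddMonoidHom.comp_add]
  zero_mem' := by
    refine ⟨fun s hs hsM σ hσ hqs hσs => ?_, fun g hg => ?_⟩
    · rw [AddSubgroup.coe_zero, map_zero, AddMonoidHom.comp_zero]
    · rw [AddSubgroup.coe_zero, AddMonoidHom.comp_zero]
      rfl
  neg_mem' {x} hx := by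
    refine ⟨fun s hs hsM σ hσ hqs hσs => ?_, fun g hg => ?_⟩
    · rw [AddSubgroup.coe_neg, map_neg, hx.hecke s hs hsM σ hσ hqs hσs]
      refine AddMonoidHom.ext fun γ => ?_
      show -(α s * x.1 γ) = α s * -(x.1 γ)
      rw [mul_neg]
    · have h1 : conjH g (G.hn g hg) ((-x : PE Γ (ZMod ℓ)) : Additive Γ →+ ZMod ℓ) =
        -conjH g (G.hn g hg) (x : Additive Γ →+ ZMod ℓ) := rfl
      rw [h1, hx.conj g hg, AddSubgroup.coe_neg]
      refine AddMonoidHom.ext fun γ => ?_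
      show -(ψ g * x.1 γ) = ψ g * -(x.1 γ)
      rw [mul_neg]

theorem mem_EigV {α : ℕ → ZMod ℓ} {ψ : SL(2, ℤ) → ZMod ℓ} {x : PE Γ (ZMod ℓ)} :
    x ∈ EigV G α ψ ↔ IsEig G α ψ (x : Additive Γ →+ ZMod ℓ) := Iff.rfl

variable (h5 : 5 ≤ ℓ)

/-- Hecke operator on `PE Γ (ZMod ℓ)` -/
def TP5 (H : HData Γ Γ) : PE Γ (ZMod ℓ) →+ PE Γ (ZMod ℓ) :=
  AddMonoidHom.mk' (fun x => ⟨H.hom (ZMod ℓ) x,
    mem_PE_of_parabolic12 (twelve_torsionFree hℓ.out h5) (H.isParabolicHom_hom x.2.1)⟩) (by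
    intro x y
    exact Subtype.ext (map_add (H.hom (ZMod ℓ)) _ _))

include h5 in
/-- **The eigenspaces are Galois stable.** -/
theorem galH_mem_EigV {α : ℕ → ZMod ℓ} {ψ : SL(2, ℤ) → ZMod ℓ} {x : PE Γ (ZMod ℓ)}
    (hx : x ∈ EigV G α ψ) (Φ : GQb) : galH ι M ℓ Φ x ∈ EigV G α ψ := by
  refine ⟨fun s hs hsM σ hσ hqs hσs => ?_, fun g hg => ?_⟩
  · haveI : NeZero s := ⟨hs.out.ne_zero⟩
    obtain ⟨ζ, hζ⟩ := exists_zeta ι s
    let O : HOp ι Γ M s := hopG G.cong hsM hσ hqs hσs hζ (G.dia σ) (G.hdia σ hσ) (G.hn σ hσ)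
    have h1 := O.galH_T (G.hgal σ hσ Φ) (TP5 h5 O.D.H) (fun x => rfl) x
    have h2 : TP5 h5 O.D.H x = (α s).val • x :=
      Subtype.ext ((hx.hecke s hs hsM σ hσ hqs hσs).trans (mulLeft_comp _ _))
    rw [h2, map_nsmul] at h1
    rw [mulLeft_comp]
    exact (congrArg Subtype.val h1).symm
  · have h1 := galH_comm (N := M) (CP g (G.hn g hg)) (G.dia g)
      (fun x f hf => rep_dia g (G.hn g hg) (G.hdia g hg) hf) (G.hgal g hg Φ) x
    have h2 : CP g (G.hn g hg) x = (ψ g).val • x :=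
      Subtype.ext ((hx.conj g hg).trans (mulLeft_comp _ _))
    rw [h2, map_nsmul] at h1
    rw [mulLeft_comp]
    exact (congrArg Subtype.val h1).symm

/-- the action on the eigenspace -/
def galV (α : ℕ → ZMod ℓ) (ψ : SL(2, ℤ) → ZMod ℓ) (Φ : GQb) : EigV G α ψ →+ EigV G α ψ :=
  ((galH ι M ℓ Φ).comp (EigV G α ψ).subtype).codRestrict (EigV G α ψ)
    fun x => galH_mem_EigV G h5 x.2 Φ

theorem galV_coe {α : ℕ → ZMod ℓ} {ψ : SL(2, ℤ) → ZMod ℓ} (Φ : GQb) (x : EigV G α ψ) :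
    (galV G h5 α ψ Φ x : PE Γ (ZMod ℓ)) = galH ι M ℓ Φ x := rfl

/-! ### The representation -/

theorem finite_hom (Γ : Subgroup SL(2, ℤ)) [Group.FG Γ] (A : Type*) [AddCommGroup A] [Finite A] :
    Finite (Additive Γ →+ A) := by
  obtain ⟨S, hS⟩ := (inferInstance : AddGroup.FG (Additive Γ)).out
  refine Finite.of_injective (fun (x : Additive Γ →+ A) (s : S) => x s) fun x y hxy => ?_
  exact AddMonoidHom.eq_of_eqOn_dense hS fun s hs => congrFun hxy ⟨s, hs⟩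

theorem smul_eq_zero_V {α : ℕ → ZMod ℓ} {ψ : SL(2, ℤ) → ZMod ℓ} (x : EigV G α ψ) :
    ℓ • x = 0 := by
  refine Subtype.ext (Subtype.ext (AddMonoidHom.ext fun γ => ?_))
  show ℓ • (x : PE Γ (ZMod ℓ)).1 γ = 0
  rw [nsmul_eq_mul, ZMod.natCast_self, zero_mul]

instance modV (α : ℕ → ZMod ℓ) (ψ : SL(2, ℤ) → ZMod ℓ) : Module (ZMod ℓ) (EigV G α ψ) :=
  AddCommGroup.zmodModule (smul_eq_zero_V G)

theorem zmod_smul_eq {V : Type*} [AddCommGroup V] [Module (ZMod ℓ) V] (a : ZMod ℓ) (x : V) :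
    a • x = a.val • x := by
  conv_lhs => rw [← ZMod.natCast_zmod_val a]
  rw [Nat.cast_smul_eq_nsmul]

/-- the representation on the eigenspace -/
def rhoV (α : ℕ → ZMod ℓ) (ψ : SL(2, ℤ) → ZMod ℓ) :
    GQb →* Module.End (ZMod ℓ) (EigV G α ψ) where
  toFun Φ := (galV G h5 α ψ Φ).toZModLinearMap ℓ
  map_one' := LinearMap.ext fun _ => Subtype.ext (galH_one _)
  map_mul' _ _ := LinearMap.ext fun _ => Subtype.ext (galH_mul _ _ _)

theorem rhoV_coe {α : ℕ → ZMod ℓ} {ψ : SL(2, ℤ) → ZMod ℓ} (Φ : GQb) (x : EigV G α ψ) :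
    (rhoV G h5 α ψ Φ x : PE Γ (ZMod ℓ)) = galH ι M ℓ Φ x := rfl

/-- finite level -/
theorem rhoV_level [Group.FG Γ] (α : ℕ → ZMod ℓ) (ψ : SL(2, ℤ) → ZMod ℓ) :
    ∃ E : IntermediateField ℚ (AlgebraicClosure ℚ), FiniteDimensional ℚ E ∧
      ∀ σ : GQb, (∀ z ∈ E, σ z = z) → rhoV G h5 α ψ σ = 1 := by
  have h1 : Finite (Additive Γ →+ ZMod ℓ) := finite_hom Γ (ZMod ℓ)
  have h2 : Finite (EigV G α ψ) := inferInstance
  choose E hE hEx using fun x : EigV G α ψ =>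
    exists_level (ι := ι) (N := M) (n := ℓ) (x : PE Γ (ZMod ℓ))
  have := hE
  refine ⟨⨆ x, E x, IntermediateField.finiteDimensional_iSup_of_finite, fun σ hσ => ?_⟩
  refine LinearMap.ext fun x => Subtype.ext ?_
  rw [rhoV_coe]
  exact hEx x σ fun z hz => hσ z (le_iSup E x hz)

theorem finiteDimensional_V [Group.FG Γ] (α : ℕ → ZMod ℓ) (ψ : SL(2, ℤ) → ZMod ℓ) :
    FiniteDimensional (ZMod ℓ) (EigV G α ψ) := by
  have h1 : Finite (Additive Γ →+ ZMod ℓ) := finite_hom Γ (ZMod ℓ)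
  have h2 : Finite (EigV G α ψ) := inferInstance
  exact Module.Finite.of_finite

theorem isCoprime_q {s : ℕ} (hs : s.Prime) (hqM : q ∣ M) (hsM : ¬ s ∣ M) :
    IsCoprime (q : ℤ) (s : ℤ) := by
  rw [Nat.isCoprime_iff_coprime, Nat.coprime_comm, Nat.Prime.coprime_iff_not_dvd hs]
  exact fun h => hsM (h.trans hqM)

/-- unramified outside `M` -/
theorem rhoV_inertia (ht : IsTameField (FG ι Γ M)) (hK : KPr ι Γ M ℓ) (α : ℕ → ZMod ℓ)
    (ψ : SL(2, ℤ) → ZMod ℓ) {s : ℕ} (hs : s.Prime) (hsM : ¬ s ∣ M)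
    {A : ValuationSubring (AlgebraicClosure ℚ)} (hA : A.LiesOverPrime s) {σ : GQb}
    (hσ : σ ∈ A.inertiaSubgroupIn ℚ) : rhoV G h5 α ψ σ = 1 := by
  refine LinearMap.ext fun x => Subtype.ext ?_
  rw [rhoV_coe]
  exact galH_inertia ht hK hs hsM hA hσ _

/-- **the Frobenius relation** -/
theorem rhoV_frob (ht : IsTameField (FG ι Γ M)) (hK : KPr ι Γ M ℓ) (α : ℕ → ZMod ℓ)
    (ψ : SL(2, ℤ) → ZMod ℓ) {s : ℕ} (hs : s.Prime) (hsM : ¬ s ∣ M)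
    {A : ValuationSubring (AlgebraicClosure ℚ)} (hA : A.LiesOverPrime s) {Φ : GQb}
    (hΦ : A.IsFrobeniusAt Φ s) {g : SL(2, ℤ)} (hg : g ∈ Gamma0 M) (hgs : (q : ℤ) ∣ g 1 1 - s) :
    rhoV G h5 α ψ Φ * rhoV G h5 α ψ Φ - α s • rhoV G h5 α ψ Φ +
      ((s : ZMod ℓ) * ψ g) • (1 : Module.End (ZMod ℓ) (EigV G α ψ)) = 0 := by
  haveI : Fact s.Prime := ⟨hs⟩
  have hqs := isCoprime_q hs G.cong.dvd hsM
  refine LinearMap.ext fun x => Subtype.ext ?_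
  have hx := (mem_EigV G).mp x.2
  have h1 := galH_frob (ℓ := ℓ) ht hK hsM hA (tdataG G.cong hsM g hg hqs hgs) (G.hdia g hg)
    (G.hn g hg) (x := x) (Tx := (α s).val • (x : PE Γ (ZMod ℓ)))
    (dx := (ψ g).val • (x : PE Γ (ZMod ℓ)))
    ((hx.hecke s ⟨hs⟩ hsM g hg hqs hgs).trans (mulLeft_comp _ _)).symm
    ((hx.conj g hg).trans (mulLeft_comp _ _)).symm hΦ
  rw [map_nsmul] at h1
  have h2 : ((rhoV G h5 α ψ Φ * rhoV G h5 α ψ Φ - α s • rhoV G h5 α ψ Φ +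
      ((s : ZMod ℓ) * ψ g) • (1 : Module.End (ZMod ℓ) (EigV G α ψ))) x) =
      rhoV G h5 α ψ Φ (rhoV G h5 α ψ Φ x) - (α s).val • rhoV G h5 α ψ Φ x +
        s • ((ψ g).val • x) := by
    rw [LinearMap.add_apply, LinearMap.sub_apply, LinearMap.smul_apply, LinearMap.smul_apply,
      zmod_smul_eq (α s), mul_smul, zmod_smul_eq (ψ g), Nat.cast_smul_eq_nsmul]
    rfl
  rw [h2]
  exact h1

/-- **The Galois representation attached to an eigenclass modulo `ℓ`.** -/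
theorem exists_rho [Group.FG Γ] (ht : IsTameField (FG ι Γ M)) (hK : KPr ι Γ M ℓ)
    {α : ℕ → ZMod ℓ} {ψ : SL(2, ℤ) → ZMod ℓ} {x : Additive Γ →+ ZMod ℓ}
    (hx : x ∈ PE Γ (ZMod ℓ)) (hx0 : x ≠ 0) (hxe : IsEig G α ψ x) (h5 : 5 ≤ ℓ) :
    ∃ (V : Type) (_ : AddCommGroup V) (_ : Module (ZMod ℓ) V)
      (_ : FiniteDimensional (ZMod ℓ) V) (_ : Nontrivial V) (ρ : GQb →* Module.End (ZMod ℓ) V),
      (∃ E : IntermediateField ℚ (AlgebraicClosure ℚ), FiniteDimensional ℚ E ∧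
        ∀ σ : GQb, (∀ z ∈ E, σ z = z) → ρ σ = 1) ∧
      (∀ s : ℕ, s.Prime → ¬ s ∣ M → ∀ A : ValuationSubring (AlgebraicClosure ℚ),
        A.LiesOverPrime s → ∀ σ ∈ A.inertiaSubgroupIn ℚ, ρ σ = 1) ∧
      ∀ s : ℕ, s.Prime → ¬ s ∣ M → ∀ A : ValuationSubring (AlgebraicClosure ℚ),
        A.LiesOverPrime s → ∀ Φ : GQb, A.IsFrobeniusAt Φ s → ∀ g ∈ Gamma0 M,
        (q : ℤ) ∣ g 1 1 - s →
          ρ Φ * ρ Φ - α s • ρ Φ + ((s : ZMod ℓ) * ψ g) • (1 : Module.End (ZMod ℓ) V) = 0 := by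
  refine ⟨EigV G α ψ, inferInstance, inferInstance, finiteDimensional_V G α ψ, ?_,
    rhoV G h5 α ψ, rhoV_level G h5 α ψ, fun s hs hsM A hA σ hσ =>
      rhoV_inertia G h5 ht hK α ψ hs hsM hA hσ, fun s hs hsM A hA Φ hΦ g hg hgs =>
      rhoV_frob G h5 ht hK α ψ hs hsM hA hΦ hg hgs⟩
  refine ⟨⟨⟨⟨x, hx⟩, hxe⟩, 0, fun h => hx0 ?_⟩⟩
  exact congrArg (fun y : EigV G α ψ => ((y : PE Γ (ZMod ℓ)) : Additive Γ →+ ZMod ℓ)) h

/-- descent of the field of coefficients of an eigenclass -/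
theorem exists_eig_of_field {k : Type*} [Field k] [Algebra (ZMod ℓ) k] {α : ℕ → ZMod ℓ}
    {ψ : SL(2, ℤ) → ZMod ℓ} {F : Additive Γ →+ k} (hF : F ∈ PE Γ k) (hF0 : F ≠ 0)
    (hT : ∀ (s : ℕ) (_ : Fact s.Prime) (hsM : ¬ s ∣ M) (σ : SL(2, ℤ)) (hσ : σ ∈ Gamma0 M)
      (hqs : IsCoprime (q : ℤ) (s : ℤ)) (hσs : (q : ℤ) ∣ σ 1 1 - s),
      (tdataG G.cong hsM σ hσ hqs hσs).H.hom k F =
        (AddMonoidHom.mulLeft (algebraMap (ZMod ℓ) k (α s))).comp F)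
    (hψ : ∀ g (hg : g ∈ Gamma0 M),
      conjH g (G.hn g hg) F = (AddMonoidHom.mulLeft (algebraMap (ZMod ℓ) k (ψ g))).comp F) :
    ∃ x ∈ PE Γ (ZMod ℓ), x ≠ 0 ∧ IsEig G α ψ x := by
  obtain ⟨γ, hγ⟩ : ∃ γ, F γ ≠ 0 := by
    by_contra hcon
    push Not at hcon
    exact hF0 (AddMonoidHom.ext hcon)
  obtain ⟨f, hf⟩ : ∃ f : Module.Dual (ZMod ℓ) k, f (F γ) ≠ 0 := by
    by_contra hcon
    push Not at hcon
    exact hγ ((Module.forall_dual_apply_eq_zero_iff (ZMod ℓ) _).mp hcon)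
  have hlin : ∀ a : ZMod ℓ, (f : k →+ ZMod ℓ).comp
      ((AddMonoidHom.mulLeft (algebraMap (ZMod ℓ) k a)).comp F) =
        (AddMonoidHom.mulLeft a).comp ((f : k →+ ZMod ℓ).comp F) := by
    intro a
    refine AddMonoidHom.ext fun γ => ?_
    show f (algebraMap (ZMod ℓ) k a * F γ) = a * f (F γ)
    rw [← Algebra.smul_def, map_smul, smul_eq_mul]
  refine ⟨(f : k →+ ZMod ℓ).comp F, comp_mem_PE _ hF, fun h => hf (DFunLike.congr_fun h γ),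
    fun s hs hsM σ hσ hqs hσs => ?_, fun g hg => ?_⟩
  · rw [HData.hom_comp, hT s hs hsM σ hσ hqs hσs, hlin]
  · rw [conjH_comp, hψ g hg, hlin]

end Main

end Fermat.Agent.DSF

end
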