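import Fermat.Agent.DSF.Frob
import Fermat.Agent.DS1.Gal
import Fermat.Agent.DS1.Main
import Fermat.Agent.WOne.P5Cheb
import Fermat.Agent.WOne.P7Main
import Fermat.Agent.WOneB.Main
import Fermat.Agent.DSRep.Gal
import Fermat.Agent.HeckeHom.Theta

/-!
# The theorem of Deligne and Serre: assembly
-/

set_option autoImplicit false
set_option linter.unusedSectionVars false
set_option linter.style.haveILetI false

noncomputable section

open UpperHalfPlane Function ModularCurve Filter ModularForm AlgebraicCurve WithZero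
  CongruenceSubgroup NumberField
open scoped Manifold MatrixGroups Topology ModularForm

namespace Fermat.Agent.DSF

open Fermat.Agent.LG Fermat.Agent.DS1
open Fermat.Agent.X0Places Fermat.Agent.FunField Fermat.Agent.FunField.PlaceLemmas
open Fermat.Agent.TorsCmp Fermat.Agent.Igusa Fermat.Agent.LGRes Fermat.Agent.LGR
open Fermat.Agent.HeckeHom (HData)

/-! ### The group `G1 N q` -/

section G1

variable (ι : AlgebraicClosure ℚ →+* ℂ) {N : ℕ} [NeZero N] {q : ℕ} (hqN : q ∣ N) (hq : 2 < q)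

include ι hqN hq in
theorem repExG1_wire : RepEx ι (G1 N q) N := by
  haveI i1 : MF ι (G1 N q) N := mf_G1 ι hqN hq
  haveI i2 : MF (RingHom.id ℂ) (G1 N q) N := mf_G1 (RingHom.id ℂ) hqN hq
  haveI : NeZero q := ⟨by omega⟩
  exact repEx_of_gen ι (G1 N q) N (FG_G1_gen ι hqN (by omega))

include ι hqN hq in
theorem fgG1_wire : Group.FG (G1 N q) := by
  haveI i1 : MF ι (G1 N q) N := mf_G1 ι hqN hq
  have i3 : Finite (XG (G1 N q)) := i1.fin
  haveI : (G1 N q).FiniteIndex := by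
    rw [Subgroup.finiteIndex_iff_finite_quotient]
    exact i3
  infer_instance

open Classical in
/-- the data for `G1 N q` -/
def geoD_G1 [NeZero q] [GalSt ι (G1 N q) N] : GeoD ι (G1 N q) N q where
  cong := isCong_G1 hqN
  hn := fun g hg γ hγ => conj_mem_G1 hqN g hg γ hγ
  dia g := if hg : g ∈ Gamma0 N then
    (exists_dia1 ι hqN (show 1 < q by omega) hg).choose else RingHom.id _
  hdia g hg f := by
    rw [dif_pos hg]
    exact (exists_dia1 ι hqN (show 1 < q by omega) hg).choose_spec.1 f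
  hgal g hg σ f := by
    rw [dif_pos hg]
    exact (exists_dia1 ι hqN (show 1 < q by omega) hg).choose_spec.2 σ f

end G1

/-! ### The valuation ring -/

section Val

variable {K : Type} [Field K] [NumberField K] (ι : K →+* ℂ) {ℓ : ℕ} [hℓ : Fact ℓ.Prime]
  (φ : 𝓞 K →+* ZMod ℓ)

theorem exists_val : ∃ V : ValuationSubring ℂ, (∀ x : 𝓞 K, ι (x : K) ∈ V) ∧
      ∀ x : 𝓞 K, φ x = 0 → V.valuation (ι (x : K)) < 1 := by
  let j : 𝓞 K →+* ℂ := ι.comp (algebraMap (𝓞 K) K)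
  have hj : Function.Injective j := ι.injective.comp RingOfIntegers.coe_injective
  let e : 𝓞 K ≃+* j.range := RingEquiv.ofBijective j.rangeRestrict
    ⟨fun x y h => hj (congrArg Subtype.val h), j.rangeRestrict_surjective⟩
  have hI : (RingHom.ker φ).comap (e.symm : j.range →+* 𝓞 K) ≠ ⊤ :=
    Ideal.comap_ne_top _ (RingHom.ker_ne_top φ)
  obtain ⟨V, h1, h2⟩ := Ideal.image_subset_nonunits_valuationSubring _ hI
  refine ⟨V, fun x => h1 ⟨x, rfl⟩, fun x hx => ?_⟩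
  have h3 := h2 ⟨e x, ?_, rfl⟩
  · exact V.mem_nonunits_iff.mp h3
  · show e x ∈ Ideal.comap _ _
    rw [Ideal.mem_comap]
    show e.symm (e x) ∈ _
    rw [e.symm_apply_apply]
    exact hx

theorem exists_alg {V : ValuationSubring ℂ} (h1 : ∀ x : 𝓞 K, ι (x : K) ∈ V)
    (h2 : ∀ x : 𝓞 K, φ x = 0 → V.valuation (ι (x : K)) < 1) :
    ∃ _ : Algebra (ZMod ℓ) (IsLocalRing.ResidueField V), ∀ x : 𝓞 K,
      algebraMap (ZMod ℓ) (IsLocalRing.ResidueField V) (φ x) =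
        IsLocalRing.residue V ⟨ι (x : K), h1 x⟩ := by
  have h3 : ∀ x : 𝓞 K, φ x = 0 → IsLocalRing.residue V ⟨ι (x : K), h1 x⟩ = 0 := by
    intro x hx
    rw [IsLocalRing.residue_eq_zero_iff]
    exact (V.valuation_lt_one_iff _).mpr (h2 x hx)
  let g : 𝓞 K →+* V := (ι.comp (algebraMap (𝓞 K) K)).codRestrict V.toSubring h1
  have h4 : ∀ x : 𝓞 K, φ x = 0 → ((IsLocalRing.residue V).comp g) x = 0 := h3
  have hsurj : Function.Surjective φ := ZMod.ringHom_surjective φ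
  let ψ : ZMod ℓ →+* IsLocalRing.ResidueField V :=
    φ.liftOfRightInverse (Function.surjInv hsurj) (Function.rightInverse_surjInv hsurj)
      ⟨(IsLocalRing.residue V).comp g, h4⟩
  refine ⟨ψ.toAlgebra, fun x => ?_⟩
  exact φ.liftOfRightInverse_comp_apply (Function.surjInv hsurj)
    (Function.rightInverse_surjInv hsurj) ⟨(IsLocalRing.residue V).comp g, h4⟩ x

end Val

theorem ι_natCast {K : Type} [Field K] [NumberField K] (ι : K →+* ℂ) (n : ℕ) :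
    ι ((n : 𝓞 K) : K) = n := by
  have : ((n : 𝓞 K) : K) = n := map_natCast (algebraMap (𝓞 K) K) n
  rw [this, map_natCast]

/-! ### Eigenclasses -/

/-- An eigenclass modulo the maximal ideal of `V` attached to `f`. -/
def HasEig (N : ℕ) [NeZero N] (ε : DirichletCharacter ℂ N) (f : CuspForm (Gamma1 N) 1) (M : ℕ)
    [NeZero M] (V : ValuationSubring ℂ) : Prop :=
  ∃ F : Additive (G1 M M) →+ IsLocalRing.ResidueField V,
    F ∈ PE (G1 M M) (IsLocalRing.ResidueField V) ∧ F ≠ 0 ∧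
    (∀ (s : ℕ) (_ : Fact s.Prime) (hsM : ¬ s ∣ M) (σ : SL(2, ℤ)) (hσ : σ ∈ Gamma0 M)
      (hqs : IsCoprime (M : ℤ) (s : ℤ)) (hσs : (M : ℤ) ∣ σ 1 1 - s)
      (h : ModularFormClass.qCoeff f s ∈ V),
      (tdataG (isCong_G1 (dvd_refl M)) hsM σ hσ hqs hσs).H.hom (IsLocalRing.ResidueField V) F =
        (AddMonoidHom.mulLeft (IsLocalRing.residue V ⟨_, h⟩)).comp F) ∧
    ∀ g (hg : g ∈ Gamma0 M) (h : ε (((g 1 1 : ℤ) : ZMod N)) ∈ V),
      conjH g (fun γ hγ => conj_mem_G1 (dvd_refl M) g hg γ hγ) F =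
        (AddMonoidHom.mulLeft (IsLocalRing.residue V ⟨_, h⟩ *
          (((g 1 1 : ℤ) : IsLocalRing.ResidueField V))⁻¹)).comp F

/-- **Eigenclasses** attached to eigenforms of weight one. -/
def EigStmt : Prop := ∀ (N : ℕ) [NeZero N] (ε : DirichletCharacter ℂ N)
  (f : CuspForm (Gamma1 N) 1), ModularFormClass.qCoeff f 1 = 1 →
  (∀ p : ℕ, p.Prime → ¬ p ∣ N → ∀ n : ℕ,
    ModularFormClass.qCoeff f (p * n) +
        ε (p : ZMod N) * (if p ∣ n then ModularFormClass.qCoeff f (n / p) else 0) =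
      ModularFormClass.qCoeff f p * ModularFormClass.qCoeff f n) →
  ∀ (ℓ : ℕ) (_ : Fact ℓ.Prime), 5 ≤ ℓ → ∀ (_ : NeZero (N * ℓ)) (V : ValuationSubring ℂ),
    V.valuation (ℓ : ℂ) < 1 → (∀ n, ModularFormClass.qCoeff f n ∈ V) → HasEig N ε f (N * ℓ) V

/-- (K') for the groups `G1 M M` -/
def KPrStmt (ι : AlgebraicClosure ℚ →+* ℂ) : Prop :=
  ∀ (M ℓ : ℕ) [NeZero M], ℓ.Prime → 5 ≤ ℓ → ℓ ∣ M → KPr ι (G1 M M) M ℓ

section Main

variable {N : ℕ} [hN0 : NeZero N] {K : Type} [Field K] [NumberField K] {ιK : K →+* ℂ}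
  {a e : ℕ → 𝓞 K} {ε : DirichletCharacter ℂ N} {f : CuspForm (Gamma1 N) 1}

/-- The mod `ℓ` representations. -/
theorem modRep_of (ι : AlgebraicClosure ℚ →+* ℂ) (hKPr : KPrStmt ι) (hN : 3 ≤ N)
    (he : ∀ n : ℕ, ιK (e n : K) = ε (n : ZMod N))
    (hap : ∀ p : ℕ, p.Prime → ¬ p ∣ N → ModularFormClass.qCoeff f p = ιK (a p : K))
    {ℓ : ℕ} [hℓ : Fact ℓ.Prime] (h5 : 5 ≤ ℓ) [NeZero (N * ℓ)]
    (φ : 𝓞 K →+* ZMod ℓ) {V : ValuationSubring ℂ} (h1 : ∀ x : 𝓞 K, ιK (x : K) ∈ V)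
    (h2 : ∀ x : 𝓞 K, φ x = 0 → V.valuation (ιK (x : K)) < 1)
    (hE : HasEig N ε f (N * ℓ) V) : Nonempty (WOne.ModRep N a e ℓ φ) := by
  obtain ⟨alg, halg⟩ := exists_alg ιK φ h1 h2
  obtain ⟨F, hF, hF0, hT, hψ⟩ := hE
  have hMN : N ∣ N * ℓ := dvd_mul_right N ℓ
  have hMℓ : ℓ ∣ N * ℓ := dvd_mul_left ℓ N
  have hM2 : 2 < N * ℓ := by nlinarith
  haveI i1 : MF ι (G1 (N * ℓ) (N * ℓ)) (N * ℓ) := mf_G1 ι (dvd_refl _) hM2
  have hM1 : 1 < N * ℓ := by omega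
  haveI i2 : GalSt ι (G1 (N * ℓ) (N * ℓ)) (N * ℓ) := galSt_G1 ι (dvd_refl _) hM1
  haveI i3 : RepEx ι (G1 (N * ℓ) (N * ℓ)) (N * ℓ) := repExG1_wire ι (dvd_refl _) hM2
  haveI i4 : Group.FG (G1 (N * ℓ) (N * ℓ)) := fgG1_wire ι (dvd_refl _) hM2
  have ht : IsTameField (FG ι (G1 (N * ℓ) (N * ℓ)) (N * ℓ)) :=
    isTameField_G1 ι (dvd_refl _) hM1
  let G : GeoD ι (G1 (N * ℓ) (N * ℓ)) (N * ℓ) (N * ℓ) := geoD_G1 ι (dvd_refl _) hM2
  -- the diamond character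
  let ψ : SL(2, ℤ) → ZMod ℓ := fun g =>
    φ (e (((g 1 1 : ℤ) : ZMod N)).val) * (((g 1 1 : ℤ) : ZMod ℓ))⁻¹
  have hεV : ∀ x : ZMod N, ιK (e x.val : K) = ε x := by
    intro x
    rw [he, ZMod.natCast_zmod_val]
  have key : ∃ x ∈ PE (G1 (N * ℓ) (N * ℓ)) (ZMod ℓ), x ≠ 0 ∧
      IsEig G (fun s => φ (a s)) ψ x := by
    refine exists_eig_of_field (k := IsLocalRing.ResidueField V) G hF hF0
      (fun s hs hsM σ hσ hqs hσs => ?_) (fun g hg => ?_)
    · have hsN : ¬ s ∣ N := fun h => hsM (h.trans hMN)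
      have h3 := hT s hs hsM σ hσ hqs hσs (by rw [hap s hs.out hsN]; exact h1 _)
      rw [halg]
      refine h3.trans ?_
      congr 3
      exact Subtype.ext (hap s hs.out hsN)
    · have h3 := hψ g hg (by rw [← hεV]; exact h1 _)
      refine h3.trans ?_
      congr 2
      show _ = algebraMap (ZMod ℓ) (IsLocalRing.ResidueField V)
        (φ (e (((g 1 1 : ℤ) : ZMod N)).val) * (((g 1 1 : ℤ) : ZMod ℓ))⁻¹)
      have e1 : algebraMap (ZMod ℓ) (IsLocalRing.ResidueField V) (((g 1 1 : ℤ) : ZMod ℓ)) =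
          ((g 1 1 : ℤ) : IsLocalRing.ResidueField V) := map_intCast (algebraMap (ZMod ℓ) _) _
      rw [map_mul, map_inv₀, e1, halg]
      congr 2
      exact Subtype.ext (hεV _).symm
  obtain ⟨x, hx, hx0, hxe⟩ := key
  obtain ⟨V', iV1, iV2, iV3, iV4, ρ, hlev, hin, hfr⟩ :=
    exists_rho G ht (hKPr (N * ℓ) ℓ hℓ.out h5 hMℓ) hx hx0 hxe h5
  have hinj : ∀ x y : 𝓞 K, ιK (x : K) = ιK (y : K) → x = y := fun x y h =>
    RingOfIntegers.coe_injective (ιK.injective h)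
  have hnd : ∀ s : ℕ, s.Prime → ¬ s ∣ N → s ≠ ℓ → ¬ s ∣ N * ℓ := by
    intro s hs hsN hsℓ h
    rcases (Nat.Prime.dvd_mul hs).mp h with h | h
    · exact hsN h
    · exact hsℓ ((Nat.prime_dvd_prime_iff_eq hs hℓ.out).mp h)
  refine DSRep.modRep_of_rel a e ιK ε (fun s _ _ => he s) (ℓ := ℓ) (by omega) φ (F := ZMod ℓ) V'
    ρ hlev (fun s hs hsN hsℓ A hA σ hσ => hin s hs (hnd s hs hsN hsℓ) A hA σ hσ)
    (fun s hs hsN hsℓ A hA Φ hΦ => ?_)
  have hsM := hnd s hs hsN hsℓ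
  obtain ⟨g, hg, hgs⟩ : ∃ g ∈ Gamma0 (N * ℓ), ((N * ℓ : ℕ) : ℤ) ∣ g 1 1 - s := by
    obtain ⟨g, hg⟩ := WOne.exists_del_eq (N := N * ℓ)
      (ZMod.unitOfCoprime s ((Nat.Prime.coprime_iff_not_dvd hs).mpr hsM))
    refine ⟨g, g.2, ?_⟩
    rw [← ZMod.intCast_zmod_eq_zero_iff_dvd]
    have h3 := congrArg (Units.val) hg
    rw [WOne.coe_del, ZMod.coe_unitOfCoprime] at h3
    push_cast
    rw [h3, sub_self]
  have h3 := hfr s hs hsM A hA Φ hΦ g hg hgs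
  have h4 : (s : ZMod ℓ) * ψ g = φ (e s) := by
    have h5 : (((g 1 1 : ℤ) : ZMod N)) = (s : ZMod N) := by
      have h6 : (((g 1 1 - s : ℤ)) : ZMod N) = 0 := by
        rw [ZMod.intCast_zmod_eq_zero_iff_dvd]
        exact (Int.natCast_dvd_natCast.2 hMN).trans hgs
      push_cast at h6
      exact sub_eq_zero.1 h6
    have h6 : (((g 1 1 : ℤ) : ZMod ℓ)) = (s : ZMod ℓ) := by
      have h6 : (((g 1 1 - s : ℤ)) : ZMod ℓ) = 0 := by
        rw [ZMod.intCast_zmod_eq_zero_iff_dvd]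
        exact (Int.natCast_dvd_natCast.2 hMℓ).trans hgs
      push_cast at h6
      exact sub_eq_zero.1 h6
    have h7 : e (((g 1 1 : ℤ) : ZMod N)).val = e s := by
      apply hinj
      rw [hεV, he, h5]
    have h8 : (s : ZMod ℓ) ≠ 0 := by
      rw [Ne, ZMod.natCast_eq_zero_iff]
      intro h
      exact hsℓ ((Nat.prime_dvd_prime_iff_eq hℓ.out hs).mp h).symm
    show (s : ZMod ℓ) * (φ (e (((g 1 1 : ℤ) : ZMod N)).val) * (((g 1 1 : ℤ) : ZMod ℓ))⁻¹) = _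
    rw [h7, h6, mul_comm (φ (e s)), ← mul_assoc, mul_inv_cancel₀ h8, one_mul]
  rw [h4] at h3
  exact h3

end Main

/-- **The theorem of Deligne and Serre.** -/
theorem s48_of (ι : AlgebraicClosure ℚ →+* ℂ) (hKPr : KPrStmt ι) (hEig : EigStmt)
    (N : ℕ) [NeZero N] (ε : DirichletCharacter ℂ N) (f : CuspForm (Gamma1 N) 1)
    (hf₁ : ModularFormClass.qCoeff f 1 = 1)
    (hT : ∀ p : ℕ, p.Prime → ¬ p ∣ N → ∀ n : ℕ,
        ModularFormClass.qCoeff f (p * n) +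
            ε (p : ZMod N) * (if p ∣ n then ModularFormClass.qCoeff f (n / p) else 0) =
          ModularFormClass.qCoeff f p * ModularFormClass.qCoeff f n) :
    ∃ ρ : (AlgebraicClosure ℚ ≃ₐ[ℚ] AlgebraicClosure ℚ) →* GL (Fin 2) ℂ,
      GaloisFactorsThroughFiniteLevel ρ ∧
      (Deformation.matrixRepresentation ρ).IsIrreducible ∧
      ∀ p : ℕ, p.Prime → ¬ p ∣ N →
        ∀ A : ValuationSubring (AlgebraicClosure ℚ), A.LiesOverPrime p →
          (∀ σ ∈ A.inertiaSubgroupIn ℚ, ρ σ = 1) ∧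
          ∀ σ : (AlgebraicClosure ℚ ≃ₐ[ℚ] AlgebraicClosure ℚ), A.IsFrobeniusAt σ p →
            ((ρ σ : GL (Fin 2) ℂ) : Matrix (Fin 2) (Fin 2) ℂ).trace =
              ModularFormClass.qCoeff f p ∧
            ((ρ σ : GL (Fin 2) ℂ) : Matrix (Fin 2) (Fin 2) ℂ).det = ε (p : ZMod N) := by
  have hN : 3 ≤ N := WOneB.three_le f hf₁
  obtain ⟨K, iK1, iK2, ιK, a, e, ha, hconj, he, f₁, D, b, hD, hf₁1, hf₁T, hf₁a, hb⟩ :=
    WOneB.exists_data ε f hf₁ hT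
  refine WOne.artin_of_modl WOne.chebStmt N ε f K ιK a e ha hconj ⟨D + 5, ?_⟩
  intro ℓ hℓ hℓD φ
  have hD0 := Nat.pos_of_ne_zero hD
  obtain ⟨V, h1, h2⟩ := exists_val ιK φ
  haveI i0 : NeZero (N * ℓ) := ⟨mul_ne_zero (NeZero.ne N) hℓ.out.ne_zero⟩
  have hℓV : V.valuation (ℓ : ℂ) < 1 := by
    have h3 := h2 (ℓ : 𝓞 K) (by rw [map_natCast, ZMod.natCast_self])
    rwa [ι_natCast] at h3
  have hDV : (D : ℂ)⁻¹ ∈ V := by
    have hDℓ : IsUnit ((D : ℕ) : ZMod ℓ) := by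
      rw [ZMod.isUnit_iff_coprime, Nat.coprime_comm, Nat.Prime.coprime_iff_not_dvd hℓ.out]
      intro h
      have := Nat.le_of_dvd hD0 h
      omega
    obtain ⟨alg, halg⟩ := exists_alg ιK φ h1 h2
    have h3 : IsUnit (IsLocalRing.residue V ⟨ιK ((D : 𝓞 K) : K), h1 _⟩) := by
      rw [← halg, map_natCast]
      exact hDℓ.map _
    have h4 := (isUnit_map_iff (IsLocalRing.residue V) _).mp h3
    obtain ⟨u, hu⟩ := h4
    have h5 : (D : ℂ) = (u : V) := by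
      rw [hu]
      exact (ι_natCast ιK D).symm
    rw [h5]
    have h6 : (((u : V) : ℂ))⁻¹ = ((u⁻¹ : Vˣ) : V) := by
      have h7 : ((u⁻¹ : Vˣ) : V) * (u : V) = 1 := u.inv_mul
      exact (eq_inv_of_mul_eq_one_left (congrArg Subtype.val h7)).symm
    rw [h6]
    exact ((u⁻¹ : Vˣ) : V).2
  refine modRep_of ι hKPr hN he hf₁a (by omega) φ h1 h2
    (hEig N ε f₁ hf₁1 hf₁T ℓ hℓ (by omega) i0 V hℓV (fun n => ?_))
  have h3 : ModularFormClass.qCoeff f₁ n = (D : ℂ)⁻¹ * ιK (b n : K) := by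
    rw [hb, ← mul_assoc, inv_mul_cancel₀ (by exact_mod_cast hD), one_mul]
  rw [h3]
  exact V.mul_mem _ _ hDV (h1 _)

end Fermat.Agent.DSF

end
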