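import Fermat.Agent.DSF.Frob
import Fermat.Agent.DS1.Gal
import Fermat.Agent.DSRep.Gal
import Fermat.Agent.HeckeHom.Theta

/-!
# The mod `ℓ` representation attached to an eigenclass for `±Γ₁(q) ∩ Γ₀(M)`
-/

set_option autoImplicit false
set_option linter.unusedSectionVars false
set_option linter.style.haveILetI false

noncomputable section

open UpperHalfPlane Function ModularCurve Filter ModularForm AlgebraicCurve WithZero
  CongruenceSubgroup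
open scoped Manifold MatrixGroups Topology ModularForm NumberField

namespace Fermat.Agent.DSF

open Fermat.Agent.LG Fermat.Agent.DS1
open Fermat.Agent.X0Places Fermat.Agent.FunField Fermat.Agent.FunField.PlaceLemmas
open Fermat.Agent.TorsCmp Fermat.Agent.Igusa Fermat.Agent.LGRes Fermat.Agent.LGR
open Fermat.Agent.HeckeHom (HData)

theorem finiteIndex_G1 {N q : ℕ} [NeZero N] (hqN : q ∣ N) : (G1 N q).FiniteIndex :=
  Subgroup.finiteIndex_of_le (gamma_le_G1 hqN)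

theorem fgG1 {N q : ℕ} [NeZero N] (hqN : q ∣ N) : Group.FG (G1 N q) := by
  haveI := finiteIndex_G1 (N := N) hqN
  infer_instance

section Geo

variable {L : Type*} [Field L] [Algebra ℚ L] [IsAlgClosed L] (ι : L →+* ℂ) {M : ℕ} [NeZero M]
  {q : ℕ} [NeZero q] (hqM : q ∣ M) (hq : 1 < q)

open Classical in
/-- the geometric data for `G1 M q` -/
def geoD1 [GalSt ι (G1 M q) M] : GeoD ι (G1 M q) M q where
  cong := isCong_G1 hqM
  hn := conj_mem_G1 hqM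
  dia σ := if h : σ ∈ Gamma0 M then (exists_dia1 ι hqM hq h).choose else RingHom.id _
  hdia σ h f := by
    rw [dif_pos h]
    exact (exists_dia1 ι hqM hq h).choose_spec.1 f
  hgal σ h s f := by
    rw [dif_pos h]
    exact (exists_dia1 ι hqM hq h).choose_spec.2 s f

end Geo

section Main

/-- the absolute Galois group of `ℚ` -/
local notation "GQb" => AlgebraicClosure ℚ ≃ₐ[ℚ] AlgebraicClosure ℚ

variable {N : ℕ} [NeZero N] {K : Type} [Field K] [NumberField K] (a e : ℕ → 𝓞 K) (j : K →+* ℂ)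
  (ε : DirichletCharacter ℂ N) (he : ∀ s : ℕ, s.Prime → ¬ s ∣ N → j (e s : K) = ε (s : ZMod N))
  {ℓ : ℕ} [hℓ : Fact ℓ.Prime] (h5 : 5 ≤ ℓ) (φ : 𝓞 K →+* ZMod ℓ)
  (ι : AlgebraicClosure ℚ →+* ℂ) {M q : ℕ} [NeZero M] (hqM : q ∣ M) (hq : 2 < q)
  (hM : ∀ s : ℕ, s.Prime → s ∣ M → s ∣ N ∨ s = ℓ)
  (hK : KPr ι (G1 M q) M ℓ) {k : Type*} [Field k] [Algebra (ZMod ℓ) k]
  {F : Additive (G1 M q) →+ k} (hF : F ∈ PE (G1 M q) k) (hF0 : F ≠ 0)
  (hT : ∀ (s : ℕ) (_ : Fact s.Prime) (hsM : ¬ s ∣ M) (σ : SL(2, ℤ)) (hσ : σ ∈ Gamma0 M)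
      (hqs : IsCoprime (q : ℤ) (s : ℤ)) (hσs : (q : ℤ) ∣ σ 1 1 - s),
      (tdataG (isCong_G1 hqM) hsM σ hσ hqs hσs).H.hom k F =
        (AddMonoidHom.mulLeft (algebraMap (ZMod ℓ) k (φ (a s)))).comp F)
  {ψ : SL(2, ℤ) → ZMod ℓ}
  (hψ : ∀ g (hg : g ∈ Gamma0 M), conjH g (conj_mem_G1 hqM g hg) F =
    (AddMonoidHom.mulLeft (algebraMap (ZMod ℓ) k (ψ g))).comp F)
  (hψe : ∀ s : ℕ, s.Prime → ¬ s ∣ M → ∀ g ∈ Gamma0 M, (q : ℤ) ∣ g 1 1 - s →
    (s : ZMod ℓ) * ψ g = φ (e s))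

include he h5 hq hM hK hF hF0 hT hψ hψe in
/-- **The mod `ℓ` representation attached to a mod `ℓ` eigenclass.** -/
theorem modRep_of_eigen : Nonempty (WOne.ModRep N a e ℓ φ) := by
  haveI : NeZero q := ⟨by omega⟩
  haveI i1 := mf_G1 ι hqM hq
  haveI i2 := galSt_G1 (N := M) ι hqM (by omega : 1 < q)
  haveI i3 : RepEx ι (G1 M q) M := by
    haveI h2 := mf_G1 (RingHom.id ℂ) hqM hq
    exact repEx_of_gen ι (G1 M q) M (FG_G1_gen ι hqM (by omega))
  haveI i4 := fgG1 (N := M) hqM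
  let G : GeoD ι (G1 M q) M q := geoD1 ι hqM (by omega)
  obtain ⟨x, hx, hx0, hxe⟩ := exists_eig_of_field G (α := fun s => φ (a s)) (ψ := ψ) hF hF0 hT hψ
  obtain ⟨V, iV1, iV2, iV3, iV4, ρ, hlev, hunr, hrel⟩ :=
    exists_rho G (isTameField_G1 ι hqM (by omega)) hK hx hx0 hxe h5
  have hsM : ∀ s : ℕ, s.Prime → ¬ s ∣ N → s ≠ ℓ → ¬ s ∣ M := by
    intro s hs hsN hsl hsM
    rcases hM s hs hsM with h | h
    · exact hsN h
    · exact hsl h
  refine DSRep.modRep_of_rel a e j ε he (by omega) φ (F := ZMod ℓ) V ρ ?_ ?_ ?_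
  · obtain ⟨E, hE, hE'⟩ := hlev
    exact ⟨E, hE, hE'⟩
  · intro s hs hsN hsl A hA σ hσ
    exact hunr s hs (hsM s hs hsN hsl) A hA σ hσ
  · intro s hs hsN hsl A hA Φ hΦ
    have hsM' := hsM s hs hsN hsl
    have hcop : IsCoprime (q : ℤ) (s : ℤ) := isCoprime_q hs hqM hsM'
    have hu : IsUnit ((s : ℕ) : ZMod q) := by
      rw [ZMod.isUnit_iff_coprime]
      exact (Nat.isCoprime_iff_coprime.1 hcop).symm
    obtain ⟨u, hu'⟩ := hu
    obtain ⟨g, hg⟩ := delq_surjective (N := M) hqM u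
    have h1 : (((g : SL(2, ℤ)) 1 1 : ℤ) : ZMod q) = (s : ZMod q) := by
      rw [← coe_delq hqM g, hg, hu']
    have h2 : (q : ℤ) ∣ (g : SL(2, ℤ)) 1 1 - s := by
      rw [← ZMod.intCast_zmod_eq_zero_iff_dvd, Int.cast_sub, h1, Int.cast_natCast, sub_self]
    have h3 := hrel s hs hsM' A hA Φ hΦ g g.2 h2
    rw [hψe s hs hsM' g g.2 h2] at h3
    exact h3

end Main

end Fermat.Agent.DSF
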